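/-
T16 (S16) package W2b: substituting a nonzero power series with zero constant term for the
variable of a polynomial ring over a domain is injective.
-/
import Mathlib

set_option autoImplicit false

namespace Fermat.Agent.S16.W

open Polynomial

variable {R : Type*} [CommRing R] [IsDomain R]

theorem eval₂_C_ne_zero (f : PowerSeries R) (hf0 : PowerSeries.constantCoeff f = 0)
    (hf : f ≠ 0) :
    ∀ (n : ℕ) (P : R[X]), P.natDegree ≤ n → P.eval₂ (PowerSeries.C : R →+* PowerSeries R) f = 0 →
      P = 0 := by
  intro n
  induction n with
  | zero =>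
    intro P hP h
    rw [Polynomial.eq_C_of_natDegree_le_zero hP, eval₂_C] at h
    rw [Polynomial.eq_C_of_natDegree_le_zero hP]
    have : P.coeff 0 = 0 := by
      have := congrArg PowerSeries.constantCoeff h
      simpa using this
    rw [this, map_zero]
  | succ n ih =>
    intro P hP h
    have hc : P.coeff 0 = 0 := by
      have h1 := congrArg PowerSeries.constantCoeff h
      rw [Polynomial.hom_eval₂, hf0, map_zero] at h1
      rw [Polynomial.eval₂_at_zero] at h1
      simpa using h1
    have hdiv : P = P.divX * X := by
      conv_lhs => rw [← Polynomial.divX_mul_X_add P, hc, map_zero, add_zero]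
    rw [hdiv, eval₂_mul, eval₂_X] at h
    have h2 : P.divX.eval₂ (PowerSeries.C : R →+* PowerSeries R) f = 0 := by
      rcases mul_eq_zero.mp h with h | h
      · exact h
      · exact absurd h hf
    have hdeg : P.divX.natDegree ≤ n := by
      rw [Polynomial.natDegree_divX_eq_natDegree_tsub_one]
      omega
    rw [hdiv, ih P.divX hdeg h2, zero_mul]

theorem eval₂_C_injective (f : PowerSeries R) (hf0 : PowerSeries.constantCoeff f = 0)
    (hf : f ≠ 0) :
    Function.Injective (Polynomial.eval₂RingHom (PowerSeries.C : R →+* PowerSeries R) f) := by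
  rw [injective_iff_map_eq_zero]
  intro P hP
  exact eval₂_C_ne_zero f hf0 hf P.natDegree P le_rfl hP

end Fermat.Agent.S16.W
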