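/-
T16 (S16) package W2a: a leading-monomial criterion for algebraic independence.

If the leading exponents (w.r.t. a monomial order) of finitely many nonzero polynomials `f i`
over a domain are "ℕ-linearly independent" (the map `e ↦ ∑ e i • deg (f i)` is injective), then
`aeval f` is injective.
-/
import Mathlib

set_option autoImplicit false

namespace Fermat.Agent.S16.W

open MvPolynomial
open scoped MonomialOrder

variable {σ ι k : Type*} [CommRing k] [IsDomain k] [Fintype ι] [DecidableEq ι]

/-- The monomial `∏ f i ^ e i`. -/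
noncomputable def monImg (f : ι → MvPolynomial σ k) (e : ι →₀ ℕ) : MvPolynomial σ k :=
  ∏ i, f i ^ e i

theorem monImg_ne_zero {f : ι → MvPolynomial σ k} (hf : ∀ i, f i ≠ 0) (e : ι →₀ ℕ) :
    monImg f e ≠ 0 :=
  Finset.prod_ne_zero_iff.mpr fun i _ => pow_ne_zero _ (hf i)

theorem degree_monImg (m : MonomialOrder σ) {f : ι → MvPolynomial σ k} (hf : ∀ i, f i ≠ 0)
    (e : ι →₀ ℕ) : m.degree (monImg f e) = ∑ i, e i • m.degree (f i) := by
  unfold monImg
  rw [m.degree_prod (fun i _ => pow_ne_zero _ (hf i))]
  exact Finset.sum_congr rfl fun i _ => m.degree_pow (f i) (e i)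

theorem aeval_eq_sum (f : ι → MvPolynomial σ k) (F : MvPolynomial ι k) :
    aeval f F = ∑ e ∈ F.support, C (F.coeff e) * monImg f e := by
  conv_lhs => rw [F.as_sum]
  rw [map_sum]
  refine Finset.sum_congr rfl fun e _ => ?_
  rw [aeval_monomial, monImg, Finsupp.prod_fintype]
  · rfl
  · intro i; exact pow_zero _

theorem aeval_injective_of_degree_injective (m : MonomialOrder σ) (f : ι → MvPolynomial σ k)
    (hf : ∀ i, f i ≠ 0)
    (hinj : Function.Injective fun e : ι →₀ ℕ => ∑ i, e i • m.degree (f i)) :
    Function.Injective (aeval f : MvPolynomial ι k → MvPolynomial σ k) := by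
  classical
  rw [injective_iff_map_eq_zero]
  intro F hF
  by_contra hne
  have hsupp : F.support.Nonempty := MvPolynomial.support_nonempty.mpr hne
  -- the degree of the image of the monomial `e`
  set D : (ι →₀ ℕ) → (σ →₀ ℕ) := fun e => ∑ i, e i • m.degree (f i) with hD
  obtain ⟨e₀, he₀, hmax⟩ := Finset.exists_max_image F.support (fun e => m.toSyn (D e)) hsupp
  have hcoeff : (aeval f F).coeff (D e₀) = F.coeff e₀ * m.leadingCoeff (monImg f e₀) := by
    rw [aeval_eq_sum, coeff_sum, Finset.sum_eq_single e₀]
    · rw [coeff_C_mul, MonomialOrder.leadingCoeff, degree_monImg m hf]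
    · intro e he hne'
      rw [coeff_C_mul]
      have hlt : m.degree (monImg f e) ≺[m] D e₀ := by
        rw [degree_monImg m hf]
        refine lt_of_le_of_ne (hmax e he) ?_
        intro heq
        exact hne' (hinj (m.toSyn.injective heq))
      rw [m.coeff_eq_zero_of_lt hlt, mul_zero]
    · intro h; exact absurd he₀ h
  rw [hF, coeff_zero] at hcoeff
  have h1 : F.coeff e₀ ≠ 0 := MvPolynomial.mem_support_iff.mp he₀
  have h2 : m.leadingCoeff (monImg f e₀) ≠ 0 :=
    m.leadingCoeff_ne_zero_iff.mpr (monImg_ne_zero hf e₀)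
  exact mul_ne_zero h1 h2 hcoeff.symm

end Fermat.Agent.S16.W
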