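/-
T16 (S16) package W1: the formal Tate parametrisation of Weierstrass coefficients.

`A = ℤ[a₁,a₂,a₃,a₄,a₆]` (`MvPolynomial (Fin 5) ℤ`), `R = ℤ[v,r,s,t]` (`MvPolynomial (Fin 4) ℤ`),
`θ : A → R⟦q⟧` sends the `aᵢ` to the coefficients of the `(u = v⁻¹, r, s, t + α)`-transform of the
Tate-shaped equation `y² + xy = x³ + α x + β` (`α β : ℤ⟦q⟧` arbitrary).  Purely formal.
-/
import Mathlib

set_option autoImplicit false

namespace Fermat.Agent.S16.W

open MvPolynomial

/-- The parameter ring `ℤ[t,s,r,v]` (variables `t = X 0`, `s = X 1`, `r = X 2`, `v = X 3`). -/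
abbrev Rp (k : Type) [CommRing k] : Type := MvPolynomial (Fin 4) k
/-- The Weierstrass coefficient ring `ℤ[a₁,a₂,a₃,a₄,a₆]`. -/
abbrev Aw (k : Type) [CommRing k] : Type := MvPolynomial (Fin 5) k

section Params
variable (k : Type) [CommRing k]

/-- `v = u⁻¹` as a constant power series. -/
noncomputable def pv : PowerSeries (Rp k) := PowerSeries.C (X 3)
noncomputable def pr : PowerSeries (Rp k) := PowerSeries.C (X 2)
noncomputable def ps : PowerSeries (Rp k) := PowerSeries.C (X 1)
noncomputable def pt : PowerSeries (Rp k) := PowerSeries.C (X 0)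

/-- A power series over `k` viewed over `R = k[v,r,s,t]`. -/
noncomputable def lift (f : PowerSeries k) : PowerSeries (Rp k) :=
  PowerSeries.map (MvPolynomial.C : k →+* Rp k) f

end Params

section Images
variable {k : Type} [CommRing k] (α β : PowerSeries k)

/-- the five transformed coefficients -/
noncomputable def img1 : PowerSeries (Rp k) := pv k * (1 + 2 * ps k)
noncomputable def img2 : PowerSeries (Rp k) := pv k ^ 2 * (-ps k + 3 * pr k - ps k ^ 2)
noncomputable def img3 : PowerSeries (Rp k) := pv k ^ 3 * (pr k + 2 * pt k + 2 * lift k α)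
noncomputable def img4 : PowerSeries (Rp k) :=
  pv k ^ 4 * (-pt k - pr k * ps k + 3 * pr k ^ 2 - 2 * ps k * pt k - 2 * ps k * lift k α)
noncomputable def img6 : PowerSeries (Rp k) :=
  pv k ^ 6 * (lift k β - lift k α ^ 2 - 2 * pt k * lift k α + pr k ^ 3 - pt k ^ 2 - pr k * pt k)

noncomputable def imgs : Fin 5 → PowerSeries (Rp k) :=
  ![img1 (k := k), img2 (k := k), img3 α, img4 α, img6 α β]

/-- The formal Tate parametrisation `θ : A → R⟦q⟧`. -/
noncomputable def theta : Aw k →+* PowerSeries (Rp k) :=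
  (MvPolynomial.aeval (R := k) (imgs α β)).toRingHom

end Images

section Quantities
variable (k : Type) [CommRing k]

/-- names for the variables of `A` -/
noncomputable def a1 : Aw k := X 0
noncomputable def a2 : Aw k := X 1
noncomputable def a3 : Aw k := X 2
noncomputable def a4 : Aw k := X 3
noncomputable def a6 : Aw k := X 4

noncomputable def b2 : Aw k := a1 k ^ 2 + 4 * a2 k
noncomputable def b4 : Aw k := 2 * a4 k + a1 k * a3 k
noncomputable def b6 : Aw k := a3 k ^ 2 + 4 * a6 k
noncomputable def b8 : Aw k :=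
  a1 k ^ 2 * a6 k + 4 * a2 k * a6 k - a1 k * a3 k * a4 k + a2 k * a3 k ^ 2 - a4 k ^ 2
noncomputable def c4 : Aw k := b2 k ^ 2 - 24 * b4 k
noncomputable def c6 : Aw k := -b2 k ^ 3 + 36 * b2 k * b4 k - 216 * b6 k
noncomputable def disc : Aw k :=
  -b2 k ^ 2 * b8 k - 8 * b4 k ^ 3 - 27 * b6 k ^ 2 + 9 * b2 k * b4 k * b6 k

end Quantities

section TateSeries
variable {k : Type} [CommRing k] (α β : PowerSeries k)

/-- `E₄(q) = 1 - 48 α`. -/
noncomputable def E4q : PowerSeries k := 1 - 48 * α
/-- `E₆(q) = 1 - 72 α + 864 β`. -/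
noncomputable def E6q : PowerSeries k := 1 - 72 * α + 864 * β
/-- `Δ(q)` of the Tate-shaped equation. -/
noncomputable def Dq : PowerSeries k := -(β - α ^ 2) - 64 * α ^ 3 - 432 * β ^ 2 + 72 * α * β

theorem E4q_cube_sub_E6q_sq : E4q α ^ 3 - E6q α β ^ 2 = 1728 * Dq α β := by
  simp only [E4q, E6q, Dq]; ring

end TateSeries

section ThetaValues
variable {k : Type} [CommRing k] (α β : PowerSeries k)

@[simp] theorem theta_a1 : theta α β (a1 k) = img1 (k := k) := by
  simp [theta, a1, imgs]
@[simp] theorem theta_a2 : theta α β (a2 k) = img2 (k := k) := by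
  simp [theta, a2, imgs]
@[simp] theorem theta_a3 : theta α β (a3 k) = img3 α := by
  simp [theta, a3, imgs]
@[simp] theorem theta_a4 : theta α β (a4 k) = img4 α := by
  simp [theta, a4, imgs]
@[simp] theorem theta_a6 : theta α β (a6 k) = img6 α β := by
  simp [theta, a6, imgs]

theorem lift_E4q : lift k (E4q α) = 1 - 48 * lift k α := by
  simp [lift, E4q, map_ofNat]
theorem lift_E6q : lift k (E6q α β) = 1 - 72 * lift k α + 864 * lift k β := by
  simp [lift, E6q, map_ofNat]
theorem lift_Dq : lift k (Dq α β) =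
    -(lift k β - lift k α ^ 2) - 64 * lift k α ^ 3 - 432 * lift k β ^ 2
      + 72 * lift k α * lift k β := by
  simp [lift, Dq, map_ofNat]

theorem theta_b2 : theta α β (b2 k) = pv k ^ 2 * (1 + 12 * pr k) := by
  simp only [b2, map_add, map_mul, map_pow, theta_a1, theta_a2, img1, img2, map_ofNat]
  ring

theorem theta_c4 : theta α β (c4 k) = pv k ^ 4 * lift k (E4q α) := by
  rw [lift_E4q]
  simp only [c4, b2, b4, map_add, map_sub, map_mul, map_pow, theta_a1, theta_a2, theta_a3,
    theta_a4, img1, img2, img3, img4, map_ofNat]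
  ring

theorem theta_c6 : theta α β (c6 k) = -(pv k ^ 6 * lift k (E6q α β)) := by
  rw [lift_E6q]
  simp only [c6, b2, b4, b6, map_add, map_sub, map_neg, map_mul, map_pow, theta_a1, theta_a2,
    theta_a3, theta_a4, theta_a6, img1, img2, img3, img4, img6, map_ofNat]
  ring

theorem theta_disc : theta α β (disc k) = pv k ^ 12 * lift k (Dq α β) := by
  rw [lift_Dq]
  simp only [disc, b2, b4, b6, b8, map_add, map_sub, map_neg, map_mul, map_pow, theta_a1,
    theta_a2, theta_a3, theta_a4, theta_a6, img1, img2, img3, img4, img6, map_ofNat]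
  ring

/-- The key congruence (*): `θ(a₁ b₂ + 4 a₃) = v³ ((1+2s) + 8 w)`. -/
noncomputable def wq : PowerSeries (Rp k) :=
  2 * pr k + 3 * pr k * ps k + pt k + lift k α

theorem theta_kappa :
    theta α β (a1 k * b2 k + 4 * a3 k) = pv k ^ 3 * ((1 + 2 * ps k) + 8 * wq α) := by
  rw [map_add, map_mul, theta_b2]
  simp only [map_mul, theta_a1, theta_a3, img1, img3, map_ofNat, wq]
  ring

end ThetaValues

end Fermat.Agent.S16.W
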