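/-
T16 (S16) package W2c: over `𝔽₂` the formal Tate parametrisation `θ̄ : 𝔽₂[a₁,…,a₆] → 𝔽₂[t,s,r,v]⟦q⟧`
is injective (leading-term independence + transcendence of `δ̄ = β̄ - ᾱ²`), hence `θ` over `ℤ` is
`2`-saturated: `2 ^ K ∣ θ a → 2 ^ K ∣ a`.
-/
import Mathlib
import Fermat.Agent.S16.W.Tate
import Fermat.Agent.S16.W.LeadIndep
import Fermat.Agent.S16.W.EvalInj

set_option autoImplicit false

namespace Fermat.Agent.S16.W

open MvPolynomial
open scoped MonomialOrder

/-- the prime field `𝔽₂` -/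
abbrev F2 : Type := ZMod 2

/-- the auxiliary polynomial ring `𝔽₂[δ,t,s,r,v]` (`δ = X 0`, `t = X 1`, `s = X 2`, `r = X 3`,
`v = X 4`) -/
abbrev Tg : Type := MvPolynomial (Fin 5) F2

noncomputable def yd : Tg := X 0
noncomputable def yt : Tg := X 1
noncomputable def ys : Tg := X 2
noncomputable def yr : Tg := X 3
noncomputable def yv : Tg := X 4

/-- the images of `a₁,…,a₆` modulo `2`, with `δ` a free variable -/
noncomputable def Psi : Fin 5 → Tg :=
  ![yv, yv ^ 2 * (ys ^ 2 + (ys + yr)), yv ^ 3 * yr, yv ^ 4 * (yt + (yr * ys + yr ^ 2)),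
    yv ^ 6 * (yd + (yt ^ 2 + (yr * yt + yr ^ 3)))]

/-- the lexicographic monomial order on `𝔽₂[δ,t,s,r,v]` (`δ > t > s > r > v`) -/
noncomputable abbrev lx : MonomialOrder (Fin 5) := MonomialOrder.lex

section Degrees

theorem deg_X (i : Fin 5) : lx.degree (X i : Tg) = Finsupp.single i 1 :=
  MonomialOrder.degree_X

theorem ys_ne : ys ≠ 0 := MvPolynomial.X_ne_zero _
theorem yr_ne : yr ≠ 0 := MvPolynomial.X_ne_zero _
theorem yt_ne : yt ≠ 0 := MvPolynomial.X_ne_zero _
theorem yd_ne : yd ≠ 0 := MvPolynomial.X_ne_zero _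
theorem yv_ne : yv ≠ 0 := MvPolynomial.X_ne_zero _

theorem deg_add_lt {f g : Tg} {d : Fin 5 →₀ ℕ} (hf : lx.degree f ≺[lx] d)
    (hg : lx.degree g ≺[lx] d) : lx.degree (f + g) ≺[lx] d :=
  lt_of_le_of_lt MonomialOrder.degree_add_le (max_lt hf hg)

theorem lex_lt_of (a b : Fin 5 →₀ ℕ) (i : Fin 5) (h : ∀ j, j < i → a j = b j)
    (hi : a i < b i) : a ≺[lx] b := by
  rw [MonomialOrder.lex_lt_iff]; exact ⟨i, h, hi⟩

theorem deg_ys : lx.degree ys = Finsupp.single 2 1 := deg_X 2
theorem deg_yr : lx.degree yr = Finsupp.single 3 1 := deg_X 3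
theorem deg_yt : lx.degree yt = Finsupp.single 1 1 := deg_X 1
theorem deg_yd : lx.degree yd = Finsupp.single 0 1 := deg_X 0
theorem deg_yv : lx.degree yv = Finsupp.single 4 1 := deg_X 4

theorem deg_Q2 : lx.degree (ys ^ 2 + (ys + yr)) = Finsupp.single 2 2 := by
  have h1 : lx.degree (ys ^ 2) = Finsupp.single 2 2 := by
    rw [MonomialOrder.degree_pow, deg_ys, Finsupp.smul_single, smul_eq_mul]
  rw [MonomialOrder.degree_add_of_lt, h1]
  rw [h1]
  apply deg_add_lt
  · rw [deg_ys]
    refine lex_lt_of _ _ 2 (fun j hj => ?_) (by simp)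
    fin_cases j <;> first | (exfalso; revert hj; decide) | simp [Finsupp.single_apply]
  · rw [deg_yr]
    refine lex_lt_of _ _ 2 (fun j hj => ?_) (by simp)
    fin_cases j <;> first | (exfalso; revert hj; decide) | simp [Finsupp.single_apply]

theorem deg_Q4 : lx.degree (yt + (yr * ys + yr ^ 2)) = Finsupp.single 1 1 := by
  rw [MonomialOrder.degree_add_of_lt, deg_yt]
  rw [deg_yt]
  apply deg_add_lt
  · rw [MonomialOrder.degree_mul yr_ne ys_ne, deg_yr, deg_ys]
    refine lex_lt_of _ _ 1 (fun j hj => ?_) (by simp)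
    fin_cases j <;> first | (exfalso; revert hj; decide) | simp [Finsupp.single_apply]
  · rw [MonomialOrder.degree_pow, deg_yr]
    refine lex_lt_of _ _ 1 (fun j hj => ?_) (by simp)
    fin_cases j <;> first | (exfalso; revert hj; decide) | simp [Finsupp.single_apply]

theorem deg_Q6 : lx.degree (yd + (yt ^ 2 + (yr * yt + yr ^ 3))) = Finsupp.single 0 1 := by
  rw [MonomialOrder.degree_add_of_lt, deg_yd]
  rw [deg_yd]
  apply deg_add_lt
  · rw [MonomialOrder.degree_pow, deg_yt]
    exact lex_lt_of _ _ 0 (fun j hj => absurd hj (by simp)) (by simp)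
  · apply deg_add_lt
    · rw [MonomialOrder.degree_mul yr_ne yt_ne, deg_yr, deg_yt]
      exact lex_lt_of _ _ 0 (fun j hj => absurd hj (by simp)) (by simp)
    · rw [MonomialOrder.degree_pow, deg_yr]
      exact lex_lt_of _ _ 0 (fun j hj => absurd hj (by simp)) (by simp)

theorem Q2_ne : ys ^ 2 + (ys + yr) ≠ 0 :=
  MonomialOrder.ne_zero_of_degree_ne_zero (m := lx) (by rw [deg_Q2]; simp)
theorem Q4_ne : yt + (yr * ys + yr ^ 2) ≠ 0 :=
  MonomialOrder.ne_zero_of_degree_ne_zero (m := lx) (by rw [deg_Q4]; simp)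
theorem Q6_ne : yd + (yt ^ 2 + (yr * yt + yr ^ 3)) ≠ 0 :=
  MonomialOrder.ne_zero_of_degree_ne_zero (m := lx) (by rw [deg_Q6]; simp)

theorem Psi_zero : Psi 0 = yv := rfl
theorem Psi_one : Psi 1 = yv ^ 2 * (ys ^ 2 + (ys + yr)) := rfl
theorem Psi_two : Psi 2 = yv ^ 3 * yr := rfl
theorem Psi_three : Psi 3 = yv ^ 4 * (yt + (yr * ys + yr ^ 2)) := rfl
theorem Psi_four : Psi 4 = yv ^ 6 * (yd + (yt ^ 2 + (yr * yt + yr ^ 3))) := rfl

theorem deg_yv_pow (n : ℕ) : lx.degree (yv ^ n) = Finsupp.single 4 n := by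
  rw [MonomialOrder.degree_pow, deg_yv, Finsupp.smul_single, smul_eq_mul, mul_one]

theorem deg_Psi0 : lx.degree (Psi 0) = Finsupp.single 4 1 := by rw [Psi_zero, deg_yv]
theorem deg_Psi1 : lx.degree (Psi 1) = Finsupp.single 4 2 + Finsupp.single 2 2 := by
  rw [Psi_one, MonomialOrder.degree_mul (pow_ne_zero _ yv_ne) Q2_ne, deg_yv_pow, deg_Q2]
theorem deg_Psi2 : lx.degree (Psi 2) = Finsupp.single 4 3 + Finsupp.single 3 1 := by
  rw [Psi_two, MonomialOrder.degree_mul (pow_ne_zero _ yv_ne) yr_ne, deg_yv_pow, deg_yr]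
theorem deg_Psi3 : lx.degree (Psi 3) = Finsupp.single 4 4 + Finsupp.single 1 1 := by
  rw [Psi_three, MonomialOrder.degree_mul (pow_ne_zero _ yv_ne) Q4_ne, deg_yv_pow, deg_Q4]
theorem deg_Psi4 : lx.degree (Psi 4) = Finsupp.single 4 6 + Finsupp.single 0 1 := by
  rw [Psi_four, MonomialOrder.degree_mul (pow_ne_zero _ yv_ne) Q6_ne, deg_yv_pow, deg_Q6]

theorem Psi_ne_zero (i : Fin 5) : Psi i ≠ 0 := by
  fin_cases i
  · exact yv_ne
  · exact mul_ne_zero (pow_ne_zero _ yv_ne) Q2_ne
  · exact mul_ne_zero (pow_ne_zero _ yv_ne) yr_ne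
  · exact mul_ne_zero (pow_ne_zero _ yv_ne) Q4_ne
  · exact mul_ne_zero (pow_ne_zero _ yv_ne) Q6_ne

theorem deg_Psi_injective :
    Function.Injective fun e : Fin 5 →₀ ℕ => ∑ i, e i • lx.degree (Psi i) := by
  intro e e' h
  simp only [Fin.sum_univ_five, deg_Psi0, deg_Psi1, deg_Psi2, deg_Psi3, deg_Psi4] at h
  have h0 := DFunLike.congr_fun h 0
  have h1 := DFunLike.congr_fun h 1
  have h2 := DFunLike.congr_fun h 2
  have h3 := DFunLike.congr_fun h 3
  have h4 := DFunLike.congr_fun h 4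
  simp [Finsupp.single_apply] at h0 h1 h2 h3 h4
  ext i
  fin_cases i <;> simp <;> omega

/-- `a₁,…,a₆ ↦ Ψ` is injective on `𝔽₂[a₁,…,a₆]`. -/
theorem aeval_Psi_injective :
    Function.Injective (aeval Psi : MvPolynomial (Fin 5) F2 → Tg) :=
  aeval_injective_of_degree_injective lx Psi Psi_ne_zero deg_Psi_injective

end Degrees

section Bridge

/-- evaluation `𝔽₂[δ,t,s,r,v] → 𝔽₂[t,s,r,v]⟦q⟧`, `δ ↦ δ(q)`, the other variables to constants -/
noncomputable def evd (δ : PowerSeries F2) : Tg →+* PowerSeries (Rp F2) :=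
  (Polynomial.eval₂RingHom (PowerSeries.C : Rp F2 →+* PowerSeries (Rp F2)) (lift F2 δ)).comp
    ((MvPolynomial.finSuccEquiv F2 4 : MvPolynomial (Fin (4 + 1)) F2 ≃ₐ[F2] _) : Tg →+* _)

theorem evd_yd (δ : PowerSeries F2) : evd δ yd = lift F2 δ := by
  simp [evd, yd, MvPolynomial.finSuccEquiv_X_zero]

theorem evd_X_succ (δ : PowerSeries F2) (i : Fin 4) :
    evd δ (X i.succ) = PowerSeries.C (X i) := by
  simp [evd, MvPolynomial.finSuccEquiv_X_succ]

theorem evd_yt (δ : PowerSeries F2) : evd δ yt = pt F2 := evd_X_succ δ 0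
theorem evd_ys (δ : PowerSeries F2) : evd δ ys = ps F2 := evd_X_succ δ 1
theorem evd_yr (δ : PowerSeries F2) : evd δ yr = pr F2 := evd_X_succ δ 2
theorem evd_yv (δ : PowerSeries F2) : evd δ yv = pv F2 := evd_X_succ δ 3

theorem two_eq_zero_F2 : (2 : PowerSeries (Rp F2)) = 0 := by
  have h : (2 : F2) = 0 := by decide
  have : (2 : PowerSeries (Rp F2)) = PowerSeries.C (MvPolynomial.C (2 : F2)) := by
    simp [map_ofNat]
  rw [this, h, map_zero, map_zero]

/-- Over `𝔽₂`, `θ` factors through `Ψ` followed by `δ ↦ β - α²`. -/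
theorem theta_F2_eq (α β : PowerSeries F2) :
    theta α β = (evd (β - α ^ 2)).comp (aeval Psi : MvPolynomial (Fin 5) F2 →ₐ[F2] Tg).toRingHom := by
  apply MvPolynomial.ringHom_ext
  · intro c
    exact RingHom.congr_fun (RingHom.ext_zmod ((theta α β).comp MvPolynomial.C)
      (((evd (β - α ^ 2)).comp
        (aeval Psi : MvPolynomial (Fin 5) F2 →ₐ[F2] Tg).toRingHom).comp MvPolynomial.C)) c
  · intro i
    have h2 := two_eq_zero_F2
    have hl : lift F2 (β - α ^ 2) = lift F2 β - lift F2 α ^ 2 := by simp [lift]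
    fin_cases i
    · show theta α β (a1 F2) = _
      simp only [theta_a1, RingHom.comp_apply, AlgHom.toRingHom_eq_coe, RingHom.coe_coe, aeval_X]
      show img1 = evd _ (Psi 0)
      rw [Psi_zero, evd_yv, img1]
      linear_combination (pv F2 * ps F2) * h2
    · show theta α β (a2 F2) = _
      simp only [theta_a2, RingHom.comp_apply, AlgHom.toRingHom_eq_coe, RingHom.coe_coe, aeval_X]
      show img2 = evd _ (Psi 1)
      rw [Psi_one]
      simp only [map_mul, map_pow, map_add, evd_yv, evd_ys, evd_yr, img2]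
      linear_combination (pv F2 ^ 2 * (-ps F2 + pr F2 - ps F2 ^ 2)) * h2
    · show theta α β (a3 F2) = _
      simp only [theta_a3, RingHom.comp_apply, AlgHom.toRingHom_eq_coe, RingHom.coe_coe, aeval_X]
      show img3 α = evd _ (Psi 2)
      rw [Psi_two]
      simp only [map_mul, map_pow, map_add, evd_yv, evd_yr, img3]
      linear_combination (pv F2 ^ 3 * (pt F2 + lift F2 α)) * h2
    · show theta α β (a4 F2) = _
      simp only [theta_a4, RingHom.comp_apply, AlgHom.toRingHom_eq_coe, RingHom.coe_coe, aeval_X]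
      show img4 α = evd _ (Psi 3)
      rw [Psi_three]
      simp only [map_mul, map_pow, map_add, evd_yv, evd_ys, evd_yr, evd_yt, img4]
      linear_combination (pv F2 ^ 4 * (-pt F2 - pr F2 * ps F2 + pr F2 ^ 2 - ps F2 * pt F2
        - ps F2 * lift F2 α)) * h2
    · show theta α β (a6 F2) = _
      simp only [theta_a6, RingHom.comp_apply, AlgHom.toRingHom_eq_coe, RingHom.coe_coe, aeval_X]
      show img6 α β = evd _ (Psi 4)
      rw [Psi_four]
      simp only [map_mul, map_pow, map_add, evd_yv, evd_yd, evd_yr, evd_yt, img6, hl]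
      linear_combination (pv F2 ^ 6 * (-pt F2 * lift F2 α - pt F2 ^ 2 - pr F2 * pt F2)) * h2

end Bridge

section Injective

theorem lift_injective (k : Type) [CommRing k] : Function.Injective (lift k) := by
  intro f g h
  ext n
  have := congrArg (PowerSeries.coeff n) h
  simp only [lift, PowerSeries.coeff_map] at this
  exact MvPolynomial.C_injective _ _ this

/-- **Injectivity modulo 2**: if `δ̄ = β̄ - ᾱ²` is a non-zero series without constant term, then
`θ̄ : 𝔽₂[a₁,…,a₆] → 𝔽₂[t,s,r,v]⟦q⟧` is injective. -/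
theorem theta_F2_injective (α β : PowerSeries F2)
    (h0 : PowerSeries.constantCoeff (β - α ^ 2) = 0) (hne : β - α ^ 2 ≠ 0) :
    Function.Injective (theta α β) := by
  rw [theta_F2_eq]
  have h1 : Function.Injective (evd (β - α ^ 2)) := by
    unfold evd
    refine Function.Injective.comp (g := Polynomial.eval₂RingHom _ _) ?_ (AlgEquiv.injective _)
    apply eval₂_C_injective
    · have : PowerSeries.constantCoeff (lift F2 (β - α ^ 2))
          = MvPolynomial.C (PowerSeries.constantCoeff (β - α ^ 2)) := by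
        simp only [lift, ← PowerSeries.coeff_zero_eq_constantCoeff_apply, PowerSeries.coeff_map]
      rw [this, h0, map_zero]
    · intro h
      apply hne
      apply lift_injective F2
      rw [h]
      simp [lift]
  exact h1.comp aeval_Psi_injective

end Injective

section Saturation

/-- reduction modulo `2` on `A` -/
noncomputable def redA : Aw ℤ →+* Aw F2 := MvPolynomial.map (Int.castRingHom F2)
/-- reduction modulo `2` on `R⟦q⟧` -/
noncomputable def redR : PowerSeries (Rp ℤ) →+* PowerSeries (Rp F2) :=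
  PowerSeries.map (MvPolynomial.map (Int.castRingHom F2))
/-- reduction modulo `2` on `ℤ⟦q⟧` -/
noncomputable def redS : PowerSeries ℤ →+* PowerSeries F2 := PowerSeries.map (Int.castRingHom F2)

theorem redR_lift (f : PowerSeries ℤ) : redR (lift ℤ f) = lift F2 (redS f) := by
  ext n
  simp [redR, redS, lift, PowerSeries.coeff_map]

theorem redR_C_X (i : Fin 4) : redR (PowerSeries.C (X i)) = PowerSeries.C (X i) := by
  simp [redR]

theorem redR_theta (α β : PowerSeries ℤ) (a : Aw ℤ) :
    redR (theta α β a) = theta (redS α) (redS β) (redA a) := by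
  have : redR.comp (theta α β) = (theta (redS α) (redS β)).comp redA := by
    apply MvPolynomial.ringHom_ext
    · intro c
      exact RingHom.congr_fun (RingHom.ext_int (( redR.comp (theta α β)).comp MvPolynomial.C)
        (((theta (redS α) (redS β)).comp redA).comp MvPolynomial.C)) c
    · intro i
      have hX : ∀ j : Fin 5, redA (X j) = X j := fun j => by simp [redA]
      fin_cases i
      · show redR (theta α β (a1 ℤ)) = theta _ _ (redA (X 0))
        rw [hX]
        show _ = theta _ _ (a1 F2)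
        simp only [theta_a1, img1, pv, ps, map_mul, map_add, map_one, map_ofNat, redR_C_X]
      · show redR (theta α β (a2 ℤ)) = theta _ _ (redA (X 1))
        rw [hX]
        show _ = theta _ _ (a2 F2)
        simp only [theta_a2, img2, pv, ps, pr, map_mul, map_add, map_sub, map_neg, map_pow,
          map_one, map_ofNat, redR_C_X]
      · show redR (theta α β (a3 ℤ)) = theta _ _ (redA (X 2))
        rw [hX]
        show _ = theta _ _ (a3 F2)
        simp only [theta_a3, img3, pv, pt, pr, map_mul, map_add, map_sub, map_neg, map_pow,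
          map_one, map_ofNat, redR_C_X, redR_lift]
      · show redR (theta α β (a4 ℤ)) = theta _ _ (redA (X 3))
        rw [hX]
        show _ = theta _ _ (a4 F2)
        simp only [theta_a4, img4, pv, pt, ps, pr, map_mul, map_add, map_sub, map_neg, map_pow,
          map_one, map_ofNat, redR_C_X, redR_lift]
      · show redR (theta α β (a6 ℤ)) = theta _ _ (redA (X 4))
        rw [hX]
        show _ = theta _ _ (a6 F2)
        simp only [theta_a6, img6, pv, pt, ps, pr, map_mul, map_add, map_sub, map_neg, map_pow,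
          map_one, map_ofNat, redR_C_X, redR_lift]
  exact RingHom.congr_fun this a

theorem two_dvd_of_redA_eq_zero (a : Aw ℤ) (h : redA a = 0) : (2 : Aw ℤ) ∣ a := by
  have h2 : (2 : Aw ℤ) = MvPolynomial.C 2 := by simp [map_ofNat]
  rw [h2, MvPolynomial.C_dvd_iff_dvd_coeff]
  intro m
  have := congrArg (MvPolynomial.coeff m) h
  simp only [redA, MvPolynomial.coeff_map, MvPolynomial.coeff_zero] at this
  have h3 : ((a.coeff m : ℤ) : ZMod 2) = 0 := this
  exact_mod_cast (ZMod.intCast_zmod_eq_zero_iff_dvd (a.coeff m) 2).mp h3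

theorem redR_eq_zero_of_two_dvd (x : PowerSeries (Rp ℤ)) (h : (2 : PowerSeries (Rp ℤ)) ∣ x) :
    redR x = 0 := by
  obtain ⟨y, rfl⟩ := h
  rw [map_mul, map_ofNat, two_eq_zero_F2, zero_mul]

variable (α β : PowerSeries ℤ)

/-- `θ` is `2`-saturated (one step). -/
theorem two_dvd_of_two_dvd_theta
    (h0 : PowerSeries.constantCoeff (redS (β - α ^ 2)) = 0) (hne : redS (β - α ^ 2) ≠ 0)
    (a : Aw ℤ) (h : (2 : PowerSeries (Rp ℤ)) ∣ theta α β a) : (2 : Aw ℤ) ∣ a := by
  apply two_dvd_of_redA_eq_zero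
  have h1 := redR_eq_zero_of_two_dvd _ h
  rw [redR_theta] at h1
  have hδ : redS β - redS α ^ 2 = redS (β - α ^ 2) := by simp
  have hinj := theta_F2_injective (redS α) (redS β) (by rw [hδ]; exact h0) (by rw [hδ]; exact hne)
  exact hinj (by rw [h1, map_zero])

/-- **`θ` is `2`-saturated**: `2 ^ K ∣ θ a → 2 ^ K ∣ a`. -/
theorem two_pow_dvd_of_two_pow_dvd_theta
    (h0 : PowerSeries.constantCoeff (redS (β - α ^ 2)) = 0) (hne : redS (β - α ^ 2) ≠ 0)
    (K : ℕ) (a : Aw ℤ) (h : (2 : PowerSeries (Rp ℤ)) ^ K ∣ theta α β a) : (2 : Aw ℤ) ^ K ∣ a := by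
  induction K generalizing a with
  | zero => simp
  | succ K ih =>
    have h2 : (2 : PowerSeries (Rp ℤ)) ∣ theta α β a :=
      dvd_trans (dvd_pow_self _ (Nat.succ_ne_zero K)) h
    obtain ⟨b, rfl⟩ := two_dvd_of_two_dvd_theta α β h0 hne a h2
    rw [map_mul, map_ofNat, pow_succ', ] at h
    have h2ne : (2 : PowerSeries (Rp ℤ)) ≠ 0 := by
      have e : (2 : PowerSeries (Rp ℤ)) = PowerSeries.C (MvPolynomial.C (2 : ℤ)) := by
        simp [map_ofNat]
      rw [e]
      intro h'
      have h1 := PowerSeries.C_injective (h'.trans (map_zero _).symm)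
      have h2' := MvPolynomial.C_injective (Fin 4) ℤ (h1.trans (map_zero _).symm)
      norm_num at h2'
    have hb := (mul_dvd_mul_iff_left h2ne).mp h
    rw [pow_succ']
    exact mul_dvd_mul_left _ (ih b hb)

end Saturation

end Fermat.Agent.S16.W
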